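/-
S55 / layer G / block REC / adapter TOW (subtask 379) — DEFINITIONS.
Sub-architect: helper417.   Plan: `coord/S55-REC-TOW.md` (origin/helper417).

TOW = "reciprocity ⇒ class module at `p`": from `ReciprocitySpec` (block REC), the upper bound
G-UP, descent G-DESC, independence of `S` (G-SIND) and the local class modules, derive for the
`S`-idèle class module `C_S(F) = G.CRep S F.Gal F.F` of a Tower level `F`:
  GD1 (existence of a fundamental class at `p`), GD3 (local–global injectivity), GD8 (inflation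
  is injective on `p`-torsion).
Route: memo `origin/helper293:coord/S55-REC-TOW-helper293.md` (T4–T7) = `origin/helper1:
coord/S55-G-REC.md` §3b with the auxiliary prime `r ∉ S`.

This file: vocabulary only (Mathlib + G/Defs + Spec/Tower + helper594's level instances).
NO sorry.  Namespace `Fermat.Agent.S55.G.Rec.TOW`.
-/
import Fermat.Agent.S55.G.DefsRes
import Fermat.Agent.S55.G.Spec1b
import Fermat.Agent.S55.E1.H594.LevelProj
import Fermat.Agent.S55.E1.Defs
import Fermat.Agent.S55.Spec.Datum2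

set_option autoImplicit false

open CategoryTheory groupCohomology
open scoped NumberField

noncomputable section

namespace Fermat.Agent.S55.G.Rec.TOW

open Fermat.Agent.S55 Fermat.Agent.S55.Tow Fermat.Agent.S55.E1.H594
open IsDedekindDomain

/-! ## 0. Maps on `H²(H, -)` for subgroups -/

section General

variable {Γ : Type} [Group Γ]

/-- The map induced by `f : A ⟶ B` on `H²(H, -)`, `H ≤ Γ` a subgroup. -/
abbrev h2Sub {A B : Rep.{0} ℤ Γ} (f : A ⟶ B) (H : Subgroup Γ) :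
    groupCohomology (T.resSub A H) 2 →ₗ[ℤ] groupCohomology (T.resSub B H) 2 :=
  (T.coeffMap ((Rep.resFunctor H.subtype).map f) 2).hom

/-- The map induced by `f : A ⟶ B` on `H²(Γ, -)`. -/
abbrev h2Top {A B : Rep.{0} ℤ Γ} (f : A ⟶ B) :
    groupCohomology A 2 →ₗ[ℤ] groupCohomology B 2 :=
  (T.coeffMap f 2).hom

/-- Restriction `H²(Γ, A) → H²(H, A)`. -/
abbrev res2 (A : Rep.{0} ℤ Γ) (H : Subgroup Γ) :
    groupCohomology A 2 →ₗ[ℤ] groupCohomology (T.resSub A H) 2 :=
  (T.resMap A H 2).hom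

end General

/-! ## 1. The intrinsic modules and maps missing in `G/Defs.lean` -/

section Intrinsic

variable (S : Finset Nat.Primes) (Γ L : Type) [Group Γ] [Field L] [NumberField L]
  [MulSemiringAction Γ L]

/-- The diagonal embedding `Lˣ ⟶ J_S(L)` in `Rep ℤ Γ`. -/
def diagJRepHom : G.LRep Γ L ⟶ G.JRep Γ S L :=
  Rep.ofHom ⟨(G.unitsDiag S L).toIntLinearMap,
    fun g => LinearMap.ext fun x => G.unitsDiag_equivariant Γ S L g x⟩

/-- The projection `J_S(L) × Div^S(L) ⟶ J_S(L)` in `Rep ℤ Γ`. -/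
def jdFstRepHom : G.JDRep S Γ L ⟶ G.JRep Γ S L :=
  Rep.ofHom ⟨(AddMonoidHom.fst (Additive (G.AS S L)ˣ) (G.PrimeOut S L →₀ ℤ)).toIntLinearMap,
    fun _ => LinearMap.ext fun _ => rfl⟩

variable {S} in
/-- The projection `J_{S'}(L) ⟶ J_S(L)` for `S ⊆ S'` in `Rep ℤ Γ`. -/
def jResRepHom {S' : Finset Nat.Primes} (h : S ⊆ S') : G.JRep Γ S' L ⟶ G.JRep Γ S L :=
  Rep.ofHom ⟨(G.jRes h L).toIntLinearMap,
    fun g => LinearMap.ext fun x => G.jRes_equivariant h L Γ g x⟩

lemma diagRepHom_comp_jdFst :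
    G.diagRepHom S Γ L ≫ jdFstRepHom S Γ L = diagJRepHom S Γ L := rfl

lemma diagRepHom_comp_divSnd :
    G.diagRepHom S Γ L ≫ G.divSndRepHom S Γ L = G.ordRepHom S Γ L := rfl

lemma jInl_comp_jdFst : G.jInlRepHom S Γ L ≫ jdFstRepHom S Γ L = 𝟙 _ := rfl

lemma jInl_comp_divSnd : G.jInlRepHom S Γ L ≫ G.divSndRepHom S Γ L = 0 := rfl

/-- `y ∈ H²(Γ, J_S(L))` is concentrated at the prime `r`: its image in `H²(Γ, J_{S∖{r}}(L))`
vanishes. -/
def IsAt (r : Nat.Primes) (y : groupCohomology (G.JRep Γ S L) 2) : Prop :=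
  h2Top (jResRepHom Γ L (Finset.erase_subset r S)) y = 0

end Intrinsic

/-! ## 2. The modules of a Tower level (helper421's model, helper594's action) -/

section Level

variable {S : Finset Nat.Primes}

/-- `Fˣ` as a `Gal(F/ℚ)`-module. -/
abbrev lvlL (M : Level S) : Rep.{0} ℤ M.Gal := G.LRep M.Gal M.F

/-- `J_S(F) = (F ⊗ ℚ_S)ˣ`. -/
abbrev lvlJ (M : Level S) : Rep.{0} ℤ M.Gal := G.JRep M.Gal S M.F

/-- `J_S(F) × Div^S(F)`. -/
abbrev lvlJD (M : Level S) : Rep.{0} ℤ M.Gal := G.JDRep S M.Gal M.F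

/-- The `S`-idèle class module `C_S(F)`. -/
abbrev lvlC (M : Level S) : Rep.{0} ℤ M.Gal := G.CRep S M.Gal M.F

/-- The same field as a level of a larger set `S'`, with class module `C_{S'}(F)`. -/
abbrev lvlC' (S' : Finset Nat.Primes) (M : Level S) : Rep.{0} ℤ M.Gal := G.CRep S' M.Gal M.F

/-- `j : J_S(F) ⟶ C_S(F)`. -/
abbrev lvlj (M : Level S) : lvlJ M ⟶ lvlC M := G.jToCRepHom S M.Gal M.F

/-- The subgroup `Z ≤ Gal(F/ℚ)` fixes a prime of `F` above `r`. -/
def FixesPrimeAbove (M : Level S) (r : Nat.Primes) (Z : Subgroup M.Gal) : Prop :=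
  ∃ w : HeightOneSpectrum (𝓞 M.F), (((r : ℕ) : 𝓞 M.F) ∈ w.asIdeal) ∧
    ∀ z ∈ Z, G.primeSMul M.Gal z w = w

end Level

end Fermat.Agent.S55.G.Rec.TOW
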