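/-
S55 / layer G / block REC / adapter TOW (subtask 379) — FROZEN INTERFACE.
Sub-architect: helper417.   Plan + proofs sketches: `coord/S55-REC-TOW.md` (origin/helper417).

Everything here is a definition or a `def XxxSpec : Prop`; NO sorry.
Producers prove `theorem xxx : XxxSpec` (or `xxx_of : Hyp₁ → … → XxxSpec`) in
`Fermat/Agent/S55/G/Rec/Tow/H<seat>/*.lean`, namespace `Fermat.Agent.S55.G.Rec.TOW.H<seat>`.

TARGETS (what the G-ADAPTER, helper955, transports to his tower datum):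
  `Gd1Spec p`, `Gd3Spec p`, `Gd8Spec p`   on `lvlC F = G.CRep S F.Gal F.F`.
INPUTS:
  * `SemiLocalInv p`  : finite-level semilocal invariants `σ` with reciprocity (from block REC);
  * `UpSpec p`, `DescSpec`, `RamSpec p` : Tower forms of G-UP, G-DESC, and the auxiliary level
    `M = F·L(r,k)`;  `G.SIndepSpec`, `G.ClassShortExactSpec` (as they are);
  * pure algebra: `ExactCountSpec`, `ResTopSpec`, `ClassModuleOfSylowSpec`, `InfInjSpec`,
    `InfResLiftSpec`, `ResMapNatSpec`, `PPrimaryLiftSpec`, `H2ExactSpec`, `ResCoeffNatSpec`.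
-/
import Fermat.Agent.S55.G.Rec.Tow.Defs
import Fermat.Agent.S55.T.Spec

set_option autoImplicit false

open CategoryTheory groupCohomology
open scoped NumberField

noncomputable section

namespace Fermat.Agent.S55.G.Rec.TOW

open Fermat.Agent.S55 Fermat.Agent.S55.Tow Fermat.Agent.S55.E1.H594
open IsDedekindDomain

/-! ## A. Reciprocity at finite level -/

/-- **FinRec**: a system of semilocal invariants `σ_H = ∑_{v | S} inv_v : H²(H, J_S(M)) → ℚ/ℤ`
for all Tower levels `M` (of all `S`) and all subgroups `H ≤ Gal(M/ℚ)` (base field `K = M^H`, the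
sum runs over the places `v` of `K` above `S`), with the four properties used by TOW. -/
structure SemiLocalInv (p : ℕ) where
  /-- the semilocal invariant -/
  σ : ∀ {S : Finset Nat.Primes} (M : Level S) (H : Subgroup M.Gal),
    groupCohomology (T.resSub (lvlJ M) H) 2 →+ AddCircle (1 : ℚ)
  /-- RECIPROCITY: a `p`-primary class `x ∈ H²(H, Mˣ)` with trivial divisor class
  (`ord_* x = 0` in `H²(H, Div^S(M))`, i.e. `x` is locally trivial outside `S`) has
  `∑_{v | S} inv_v(x_v) = 0`. -/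
  recip : ∀ {S : Finset Nat.Primes} (M : Level S) (H : Subgroup M.Gal)
    (x : groupCohomology (T.resSub (lvlL M) H) 2), E1.IsPPrimary p x →
    h2Sub (G.ordRepHom S M.Gal M.F) H x = 0 →
    σ M H (h2Sub (diagJRepHom S M.Gal M.F) H x) = 0
  /-- RESTRICTION multiplies the semilocal invariant by the index
  (`inv ∘ res = degree · inv` and `∑_{w | v} [K'_w : K_v] = [K' : K]`). -/
  resIndex : ∀ {S : Finset Nat.Primes} (M : Level S) (H : Subgroup M.Gal)
    (y : groupCohomology (lvlJ M) 2),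
    σ M H (res2 (lvlJ M) H y) = H.index • σ M ⊤ (res2 (lvlJ M) ⊤ y)
  /-- INJECTIVITY over `ℚ` at one prime: a `p`-primary class of `H²(Gal(M/ℚ), J_S(M))`
  concentrated at `r` with invariant `0` is `0`  (Shapiro + injectivity of `inv_r`). -/
  injAt : ∀ {S : Finset Nat.Primes} (M : Level S) (r : Nat.Primes)
    (y : groupCohomology (lvlJ M) 2), E1.IsPPrimary p y → IsAt S M.Gal M.F r y →
    σ M ⊤ (res2 (lvlJ M) ⊤ y) = 0 → y = 0
  /-- LOCAL CLASSES: if the `p`-group `Z ≤ H` fixes a prime of `M` above `r ∈ S`, there is a class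
  in `H²(H, J_S(M))` killed by `|Z|` whose invariant has order exactly `|Z|`
  (local class field theory at the place below that prime: `|Z|` divides the local degree). -/
  locClass : ∀ {S : Finset Nat.Primes} (M : Level S) (r : Nat.Primes), r ∈ S →
    ∀ H Z : Subgroup M.Gal, Z ≤ H → IsPGroup p Z → FixesPrimeAbove M r Z →
    ∃ y : groupCohomology (T.resSub (lvlJ M) H) 2,
      Nat.card Z • y = 0 ∧ ∀ n : ℕ, n • σ M H y = 0 → Nat.card Z ∣ n

/-- **FinRec** as a proposition. -/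
def FinRecSpec (p : ℕ) : Prop := Nonempty (SemiLocalInv p)

/-! ## B. Tower forms of the inputs from layer G -/

/-- **UP-TOW** (Tower form of `G.PClassUpperSpec`): for a level `M ⊇ μ_p` of `S ∋ p` and every
`p`-subgroup `H ≤ Gal(M/ℚ)`: `H¹(H, C_S(M)) = 0` and `|H²(H, C_S(M))|` divides `|H|`. -/
def UpSpec (p : ℕ) : Prop :=
  ∀ (S : Finset Nat.Primes) (hp : p.Prime), p ≠ 2 → (⟨p, hp⟩ : Nat.Primes) ∈ S →
    ∀ M : Level S, M.HasMu p → ∀ H : Subgroup M.Gal, IsPGroup p H →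
      Limits.IsZero (groupCohomology (T.resSub (lvlC M) H) 1) ∧
      T.CardDvd (groupCohomology (T.resSub (lvlC M) H) 2) (Nat.card H)

/-- `ι : Res_π C ⟶ C'` identifies `C` with the invariants of `ker π` in `C'`. -/
def IsInvIncl {Γ' Γ : Type} [Group Γ'] [Group Γ] (π : Γ' →* Γ) {C : Rep.{0} ℤ Γ}
    {C' : Rep.{0} ℤ Γ'} (ι : Rep.res π C ⟶ C') : Prop :=
  Function.Injective ι.hom ∧
    ∀ c : C'.V, (∀ n ∈ π.ker, C'.ρ n c = c) → c ∈ Set.range ι.hom

/-- **DESC-TOW** (Tower form of `G.DescentSpec`): for levels `L ≤ M` of `S ≠ ∅` there is a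
transition map `C_S(L) → C_S(M)`, equivariant along `Gal(M/ℚ) → Gal(L/ℚ)`, injective, whose image
contains (hence is) the invariants of `Gal(M/L)`. -/
def DescSpec : Prop :=
  ∀ (S : Finset Nat.Primes), S.Nonempty → ∀ (L M : Level S) (h : L ≤ M),
    ∃ ι : Rep.res (Level.proj h) (lvlC L) ⟶ lvlC M, IsInvIncl (Level.proj h) ι

/-- **RAM** (auxiliary level): for a level `L` of `S`, a prime `p` and `k`, there are a prime
`r ∉ S` and a level `M ≥ L` of `S ∪ {r}` such that `Gal(M/L)` has order `p^k` and fixes a prime of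
`M` above `r`.  (`r ≡ 1 mod p^k`, `M = L·L(r,k)`, `L(r,k) ⊂ ℚ(ζ_r)` of degree `p^k`: `M/L` is
totally ramified above `r`, so `Gal(M/L)` is the inertia group of any prime above `r`.) -/
def RamSpec (p : ℕ) : Prop :=
  p.Prime → ∀ (S : Finset Nat.Primes) (L : Level S) (k : ℕ),
    ∃ (r : Nat.Primes) (_ : r ∉ S) (M : Level (insert r S))
      (h : Level.ofLE (Finset.subset_insert r S) L ≤ M),
      Nat.card (Level.relGal h) = p ^ k ∧ FixesPrimeAbove M r (Level.relGal h)

/-! ## C. Pure algebra -/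

/-- **ALG-EX** (exactness by counting).  `j : X → Y`, `σ : X → T` additive, `ker j ⊆ ker σ`,
`|Y|` divides `m` and some `σ y₀` has order exactly `m`.  Then `ker σ ⊆ ker j` and `|Y| = m`. -/
def ExactCountSpec : Prop :=
  ∀ (X Y T : Type) [AddCommGroup X] [AddCommGroup Y] [AddCommGroup T] (j : X →+ Y) (σ : X →+ T)
    (m : ℕ), 0 < m → (∀ x, j x = 0 → σ x = 0) → Finite Y → Nat.card Y ∣ m →
    (∃ y₀ : X, ∀ n : ℕ, n • σ y₀ = 0 → m ∣ n) →
    (∀ x, σ x = 0 → j x = 0) ∧ Nat.card Y = m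

/-- **ALG-TOP**: restriction to the subgroup `⊤` is bijective. -/
def ResTopSpec : Prop :=
  ∀ (Γ : Type) [Group Γ] (A : Rep.{0} ℤ Γ) (n : ℕ),
    Function.Bijective (T.resMap A (⊤ : Subgroup Γ) n).hom

/-- **ALG-CM** (class module at `p` from a Sylow subgroup).  If `H¹(H, C) = 0` and
`|H²(H, C)| ∣ |H|` for all `p`-subgroups `H`, and `res_P γ` has order (at least) `|P|` for ONE
Sylow `p`-subgroup `P`, then `(C, γ)` is a class module at `p`.  (Only `T.ResIndexSpec`.) -/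
def ClassModuleOfSylowSpec : Prop :=
  ∀ (p : ℕ), p.Prime → ∀ (Γ : Type) [Group Γ] [Finite Γ] (C : Rep.{0} ℤ Γ)
    (γ : groupCohomology C 2) (P : Subgroup Γ), IsPGroup p P → ¬ p ∣ P.index →
    (∀ H : Subgroup Γ, IsPGroup p H →
      Limits.IsZero (groupCohomology (T.resSub C H) 1) ∧
      T.CardDvd (groupCohomology (T.resSub C H) 2) (Nat.card H)) →
    (∀ n : ℕ, n • res2 C P γ = 0 → Nat.card P ∣ n) →
    E1.IsClassModuleAt p C γ

/-- **ALG-INF** (memo T7): if `C = C'^{ker π}` and `H¹(Q, C') = 0` for all `p`-subgroups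
`Q ≤ ker π`, then inflation `H²(Γ, C) → H²(Γ', C')` is injective on `p`-primary classes. -/
def InfInjSpec : Prop :=
  ∀ (p : ℕ), p.Prime → ∀ (Γ' Γ : Type) [Group Γ'] [Group Γ] [Finite Γ'] (π : Γ' →* Γ),
    Function.Surjective π →
    ∀ (C : Rep.{0} ℤ Γ) (C' : Rep.{0} ℤ Γ') (ι : Rep.res π C ⟶ C'), IsInvIncl π ι →
    (∀ Q : Subgroup Γ', Q ≤ π.ker → IsPGroup p Q →
      Limits.IsZero (groupCohomology (T.resSub C' Q) 1)) →
    ∀ z : groupCohomology C 2, E1.IsPPrimary p z →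
      (groupCohomology.map π ι 2).hom z = 0 → z = 0

/-- **ALG-LIFT** (inflation–restriction + descent): if `C = C'^{ker π}` and
`H¹(ker π, C') = 0`, every class of `H²(Γ', C')` which dies on `ker π` is inflated from
`H²(Γ, C)`. -/
def InfResLiftSpec : Prop :=
  ∀ (Γ' Γ : Type) [Group Γ'] [Group Γ] [Finite Γ'] (π : Γ' →* Γ), Function.Surjective π →
    ∀ (C : Rep.{0} ℤ Γ) (C' : Rep.{0} ℤ Γ') (ι : Rep.res π C ⟶ C'), IsInvIncl π ι →
    Limits.IsZero (groupCohomology (T.resSub C' π.ker) 1) →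
    ∀ Y : groupCohomology C' 2, res2 C' π.ker Y = 0 →
      ∃ γ : groupCohomology C 2, (groupCohomology.map π ι 2).hom γ = Y

/-- **ALG-NAT**: restriction commutes with inflation: if `res_P z = 0` then
`res_{π⁻¹ P} (inf z) = 0`. -/
def ResMapNatSpec : Prop :=
  ∀ (Γ' Γ : Type) [Group Γ'] [Group Γ] (π : Γ' →* Γ)
    (C : Rep.{0} ℤ Γ) (C' : Rep.{0} ℤ Γ') (ι : Rep.res π C ⟶ C') (P : Subgroup Γ)
    (z : groupCohomology C 2), res2 C P z = 0 →
      res2 C' (P.comap π) ((groupCohomology.map π ι 2).hom z) = 0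

/-- **ALG-PP** (`p`-primary lift): in a group killed by `N > 0`, a preimage of a `p`-primary
element can be chosen `p`-primary. -/
def PPrimaryLiftSpec : Prop :=
  ∀ (p : ℕ), p.Prime → ∀ (X Y : Type) [AddCommGroup X] [AddCommGroup Y] (f : X →+ Y) (N : ℕ),
    0 < N → (∀ x : X, N • x = 0) → ∀ x : X, E1.IsPPrimary p (f x) →
      ∃ x' : X, E1.IsPPrimary p x' ∧ f x' = f x

/-- **ALG-SES**: exactness of `H²(H, X₁) → H²(H, X₂) → H²(H, X₃)` for a short exact sequence of
`Γ`-modules, for `Γ` and for all its subgroups. -/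
def H2ExactSpec : Prop :=
  ∀ (Γ : Type) [Group Γ] (X : ShortComplex (Rep.{0} ℤ Γ)), X.ShortExact →
    (∀ z : groupCohomology X.X₂ 2, h2Top X.g z = 0 → ∃ x, h2Top X.f x = z) ∧
    (∀ (H : Subgroup Γ) (z : groupCohomology (T.resSub X.X₂ H) 2),
      h2Sub X.g H z = 0 → ∃ x, h2Sub X.f H x = z)

/-- **ALG-RCN**: restriction commutes with change of coefficients. -/
def ResCoeffNatSpec : Prop :=
  ∀ (Γ : Type) [Group Γ] (A B : Rep.{0} ℤ Γ) (f : A ⟶ B) (H : Subgroup Γ)
    (x : groupCohomology A 2), h2Sub f H (res2 A H x) = res2 B H (h2Top f x)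

/-! ## D. Intermediate statements -/

/-- **KERJ** (reciprocity in the form used below): a `p`-primary class `a ∈ H²(H, J_S(M))` which
dies in `H²(H, C_S(M))` has `σ_H(a) = 0`.
(`a = diag_* x` with `ord_* x = 0` by `G.ClassShortExactSpec` + `H2ExactSpec`; `x` can be taken
`p`-primary by `PPrimaryLiftSpec` + `T.CardTorsionSpec`; then `recip`.) -/
def KerJSpec (p : ℕ) (I : SemiLocalInv p) : Prop :=
  ∀ (S : Finset Nat.Primes), S.Nonempty → ∀ (M : Level S) (H : Subgroup M.Gal)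
    (a : groupCohomology (T.resSub (lvlJ M) H) 2), E1.IsPPrimary p a →
    h2Sub (lvlj M) H a = 0 → I.σ M H a = 0


/-- **T4'** (exactness at a totally ramified place).  `M ⊇ μ_p` a level of `S ∋ p`, `Z ≤ Gal(M/ℚ)`
a `p`-group fixing a prime of `M` above `r ∈ S`.  Then a class `a ∈ H²(Z, J_S(M))` with
`σ_Z(a) = 0` dies in `H²(Z, C_S(M))`, and `|H²(Z, C_S(M))| = |Z|`.
(From `KerJSpec`, `locClass`, `UpSpec`, `ExactCountSpec`, `T.CardTorsionSpec`.) -/
def TotExactSpec (p : ℕ) (I : SemiLocalInv p) : Prop :=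
  ∀ (S : Finset Nat.Primes) (hp : p.Prime), p ≠ 2 → (⟨p, hp⟩ : Nat.Primes) ∈ S →
    ∀ M : Level S, M.HasMu p → ∀ r : Nat.Primes, r ∈ S → ∀ Z : Subgroup M.Gal, IsPGroup p Z →
      FixesPrimeAbove M r Z →
      (∀ a : groupCohomology (T.resSub (lvlJ M) Z) 2, I.σ M Z a = 0 → h2Sub (lvlj M) Z a = 0) ∧
      Nat.card (groupCohomology (T.resSub (lvlC M) Z) 2) = Nat.card Z

/-! ## E. Targets -/

/-- **GD1-TOW**: every level `F ⊇ μ_p` of `S ∋ p` has a fundamental class at `p`. -/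
def Gd1Spec (p : ℕ) : Prop :=
  ∀ (S : Finset Nat.Primes) (hp : p.Prime), p ≠ 2 → (⟨p, hp⟩ : Nat.Primes) ∈ S →
    ∀ L : Level S, L.HasMu p →
      ∃ γ : groupCohomology (lvlC L) 2, E1.IsClassModuleAt p (lvlC L) γ

/-- **GD3-TOW**: `j_* : H²(Gal(F/ℚ), J_S(F)) → H²(Gal(F/ℚ), C_S(F))` is injective on `p`-primary
classes concentrated at one prime `q ∈ S`. -/
def Gd3Spec (p : ℕ) : Prop :=
  ∀ (S : Finset Nat.Primes) (L : Level S) (q : Nat.Primes), q ∈ S →
    ∀ y : groupCohomology (lvlJ L) 2, E1.IsPPrimary p y → IsAt S L.Gal L.F q y →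
      h2Top (lvlj L) y = 0 → y = 0

/-- **GD8-TOW**: for levels `L ≤ M` of `S ∋ p`, `M ⊇ μ_p`, and ANY transition map `ι` identifying
`C_S(L)` with `C_S(M)^{Gal(M/L)}`, the inflation `H²(Gal(L/ℚ), C_S(L)) → H²(Gal(M/ℚ), C_S(M))`
is injective on `p`-primary classes. -/
def Gd8Spec (p : ℕ) : Prop :=
  ∀ (S : Finset Nat.Primes) (hp : p.Prime), p ≠ 2 → (⟨p, hp⟩ : Nat.Primes) ∈ S →
    ∀ (L M : Level S) (h : L ≤ M), M.HasMu p →
    ∀ ι : Rep.res (Level.proj h) (lvlC L) ⟶ lvlC M, IsInvIncl (Level.proj h) ι →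
    ∀ z : groupCohomology (lvlC L) 2, E1.IsPPrimary p z →
      (groupCohomology.map (Level.proj h) ι 2).hom z = 0 → z = 0

/-! ## F. Assembly statements (deliverables of the TOW block) -/

/-- `kerJ_of` : KERJ from `recip`. -/
def KerJAssemblySpec (p : ℕ) : Prop :=
  p.Prime → ∀ I : SemiLocalInv p, G.ClassShortExactSpec → H2ExactSpec → PPrimaryLiftSpec →
    T.CardTorsionSpec → KerJSpec p I

/-- `gd3_of` : GD3 from reciprocity (memo T5). -/
def Gd3AssemblySpec (p : ℕ) : Prop :=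
  ∀ I : SemiLocalInv p, KerJSpec p I → ResCoeffNatSpec → Gd3Spec p

/-- `gd8_of` : GD8 is formal (memo T7). -/
def Gd8AssemblySpec (p : ℕ) : Prop := UpSpec p → InfInjSpec → Gd8Spec p

/-- `totExact_of` : T4'. -/
def TotExactAssemblySpec (p : ℕ) : Prop :=
  ∀ I : SemiLocalInv p, KerJSpec p I → UpSpec p → ExactCountSpec → T.CardTorsionSpec →
    TotExactSpec p I

/-- `gd1_of` : GD1 (memo T6). -/
def Gd1AssemblySpec (p : ℕ) : Prop :=
  ∀ I : SemiLocalInv p, KerJSpec p I → TotExactSpec p I → UpSpec p → DescSpec →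
    G.SIndepSpec → RamSpec p → ResTopSpec → ResCoeffNatSpec → ClassModuleOfSylowSpec →
    InfResLiftSpec → ResMapNatSpec → T.ResIndexSpec → Gd1Spec p

end Fermat.Agent.S55.G.Rec.TOW
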